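/-
S18 / M1 (helper208): the function field of the special fibre.

* `relfinrank_full`     : `[F_{N,k} : k(j)] = ψ(N)` for every field `k` with `N` invertible.
* `isSeparable_full`    : every element of `F_{N,k}` is separable over `k(j)`.
* `exists_lift`         : (res surjective) every element of `F_κ` is the reduction of an element
                          of `F_E ∩ V`, and is a quotient of reductions of elements integral
                          over `O[j]`.
-/
import Mathlib
import Fermat.Agent.S18.H208.Gauss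

set_option autoImplicit false
set_option linter.unusedSectionVars false
set_option linter.style.haveILetI false

noncomputable section

namespace Fermat.Agent.S18.H208

open ModularCurve HahnSeries Polynomial Fermat.Agent.S28 Fermat.Agent.S28.H86

section Degree

/-- **(T5)** `[F_{N,k} : k(j)] = ψ(N)`. -/
theorem relfinrank_full (A : AnalyticInputs) (k : Type) [Field k] (N : ℕ) [NeZero N]
    (hN : (N : k) ≠ 0) :
    (jField k).relfinrank (modularFunctionFieldFullC k N) = dedekindPsi N := by
  have h := (good_of_analytic A k N hN).degE_eq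
  rw [S28.H867.gFun_eq_dedekindPsi (NeZero.ne N)] at h
  exact h

end Degree

section Sep

variable (k : Type) [Field k]

/-- `Φ_p(X, j)` is a separable polynomial over `k((q))` when `p` is invertible in `k`. -/
theorem separable_modPoly {p : ℕ} [NeZero p] (hp : p.Prime) (D : ModPolyData p)
    (hpk : (p : k) ≠ 0) : (D.Φ.map (S28.H208.evZ (jqModC k))).Separable := by
  haveI : NeZero (p : k) := ⟨hpk⟩
  obtain ⟨ζ, hζ⟩ := HasEnoughRootsOfUnity.exists_primitiveRoot (AlgebraicClosure k) p
  have h1 : (D.Φ.map (S28.H208.evZ (qExpand (AlgebraicClosure k) p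
      (jqModC (AlgebraicClosure k))))).Separable := by
    rw [S28.H208.map_eq_prod_rootAt D hp.one_lt ζ hζ]
    exact Polynomial.separable_prod_X_sub_C_iff.mpr (S28.H208.rootAt_injective hp.one_lt ζ hζ)
  have h2 : (D.Φ.map (S28.H208.evZ (jqModC (AlgebraicClosure k)))).Separable := by
    rw [← S28.H208.map_map_evZ (qExpand (AlgebraicClosure k) p) D.Φ
      (jqModC (AlgebraicClosure k))] at h1
    exact (Polynomial.separable_map _).mp h1
  have h3 : (D.Φ.map (S28.H208.evZ (jqModC k))).map
      (coeffMap (algebraMap k (AlgebraicClosure k))) =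
      D.Φ.map (S28.H208.evZ (jqModC (AlgebraicClosure k))) := by
    rw [S28.H208.map_map_evZ, coeffMap_jqModC]
  rw [← h3] at h2
  exact (Polynomial.separable_map _).mp h2

/-- `Φ_p(X, j(q^m))` is separable over `k((q))`. -/
theorem separable_modPoly_qExpand {p : ℕ} [NeZero p] (hp : p.Prime) (D : ModPolyData p)
    (hpk : (p : k) ≠ 0) (m : ℕ) [NeZero m] :
    (D.Φ.map (S28.H208.evZ (qExpand k m (jqModC k)))).Separable := by
  rw [← S28.H208.map_map_evZ (qExpand k m) D.Φ (jqModC k)]
  exact (Polynomial.separable_map _).mpr (separable_modPoly k hp D hpk)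

/-- `j(q^d)` is separable over `k(j)` when `d` is invertible in `k`. -/
theorem jd_mem_separableClosure (A : AnalyticInputs) :
    ∀ (d : ℕ) (hd : d ≠ 0), (∀ p : ℕ, p.Prime → p ∣ d → (p : k) ≠ 0) →
      @qExpand k _ d ⟨hd⟩ (jqModC k) ∈ separableClosure (jField k) (LaurentSeries k) := by
  intro d
  induction d using induction_on_primes with
  | zero => intro hd; exact absurd rfl hd
  | one =>
    intro _ _
    rw [qExpand_one_apply]
    exact (separableClosure (jField k) (LaurentSeries k)).algebraMap_mem
      (⟨jqModC k, S28.H145.jqModC_mem_jField⟩ : jField k)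
  | prime_mul p m hp ih =>
    intro hd hchar
    have hm : m ≠ 0 := fun h => hd (by rw [h, mul_zero])
    haveI : NeZero p := ⟨hp.ne_zero⟩
    haveI : NeZero m := ⟨hm⟩
    haveI : NeZero (m * p) := ⟨Nat.mul_ne_zero hm hp.ne_zero⟩
    haveI : NeZero (p * m) := ⟨hd⟩
    obtain ⟨D⟩ := A.modPoly p hp
    have hjm := ih hm (fun r hr hrm => hchar r hr (hrm.mul_left p))
    have hpk : (p : k) ≠ 0 := hchar p hp (dvd_mul_right p m)
    set Ks := separableClosure (jField k) (LaurentSeries k) with hKs
    -- the polynomial `Φ_p(X, j_m)` over `Ks`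
    set jm : Ks := ⟨qExpand k m (jqModC k), hjm⟩ with hjmdef
    set P : Polynomial Ks := D.Φ.map (S28.H208.evZ jm) with hP
    have hPmap : P.map (algebraMap Ks (LaurentSeries k)) =
        D.Φ.map (S28.H208.evZ (qExpand k m (jqModC k))) := by
      rw [hP, S28.H208.map_map_evZ]
      rfl
    have hPsep : P.Separable := by
      have := separable_modPoly_qExpand k hp D hpk m
      rw [← hPmap] at this
      exact (Polynomial.separable_map _).mp this
    have hroot : Polynomial.aeval (qExpand k (m * p) (jqModC k)) P = 0 := by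
      rw [Polynomial.aeval_def, ← Polynomial.eval_map, hPmap, Polynomial.eval_map]
      exact S28.H208.eval_jp_ring_qExpand k D m
    have hsep : IsSeparable Ks (qExpand k (m * p) (jqModC k)) :=
      hPsep.of_dvd (minpoly.dvd Ks _ hroot)
    have hmem : qExpand k (m * p) (jqModC k) ∈ separableClosure Ks (LaurentSeries k) :=
      mem_separableClosure_iff.mpr hsep
    rw [separableClosure.separableClosure_eq_bot, IntermediateField.mem_bot] at hmem
    obtain ⟨y, hy⟩ := hmem
    have hfin : qExpand k (m * p) (jqModC k) ∈ Ks := by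
      rw [← hy]
      exact y.2
    have hcongr : @qExpand k _ (p * m) ⟨hd⟩ (jqModC k) = qExpand k (m * p) (jqModC k) :=
      qExpand_congr (mul_comm p m) _
    rw [hcongr]
    exact hfin

/-- **(T6)** Every element of `F_{N,k}` is separable over `k(j)` (`N` invertible in `k`). -/
theorem isSeparable_full (A : AnalyticInputs) (N : ℕ) [NeZero N] (hN : (N : k) ≠ 0)
    {x : LaurentSeries k} (hx : x ∈ modularFunctionFieldFullC k N) :
    IsSeparable (jField k) x := by
  rw [← mem_separableClosure_iff]
  have hle : modularFunctionFieldFullC k N ≤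
      (separableClosure (jField k) (LaurentSeries k)).restrictScalars k := by
    rw [modularFunctionFieldFullC, IntermediateField.adjoin_le_iff]
    rintro _ ⟨d, hd, hdN, rfl⟩
    exact jd_mem_separableClosure k A d hd.out
      (fun p _ hpd => natCast_prime_ne_zero_of_dvd hN p (hpd.trans hdN))
  exact hle hx

end Sep

section Lift

variable {E : Type} [Field E] {O : Subring E} {κ : Type} [Field κ] {res : O →+* κ} {π : O}

theorem isFrac_top (κ : Type) [Field κ] : IsFrac (⊤ : Subring κ) := fun e =>
  ⟨⟨e, Subring.mem_top e⟩, 1, one_ne_zero, by simp⟩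

theorem evE_top_eq_aeval (t : LaurentSeries κ) (P : Polynomial (⊤ : Subring κ)) :
    evE (⊤ : Subring κ) t P = Polynomial.aeval t (P.map (⊤ : Subring κ).subtype) := by
  rw [Polynomial.aeval_def, Polynomial.eval₂_map]
  show Polynomial.eval₂ _ t P = _
  congr 1
  ext c : 1
  rw [RingHom.comp_apply, RingHom.comp_apply, algebraMap_laurentSeries_eq_single]
  rfl

theorem gaussRed_evE_j (P : Polynomial O) :
    gaussRed O res ⟨evE O (jqModC E) P, evE_mem_gaussRing (j_mem_gaussRing O res) P⟩ =
      Polynomial.aeval (jqModC κ) (P.map res) := by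
  have : (⟨evE O (jqModC E) P, evE_mem_gaussRing (j_mem_gaussRing O res) P⟩ : gaussRing O res) =
      evV O res ⟨jqModC E, j_mem_gaussRing O res⟩ P :=
    Subtype.ext (coe_evV (⟨jqModC E, j_mem_gaussRing O res⟩ : gaussRing O res) P).symm
  rw [this, gaussRed_evV, gaussRed_j]

/-- **(T3)** Every element of `F_κ` is a quotient of reductions of elements of `F_E` integral
over `O[j]`. -/
theorem exists_lift (A : AnalyticInputs) (hsurj : Function.Surjective res)
    (N : ℕ) [NeZero N] (hN : (N : κ) ≠ 0)
    {z : LaurentSeries κ} (hz : z ∈ modularFunctionFieldFullC κ N) :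
    ∃ (a b : LaurentSeries E) (ha : a ∈ gaussRing O res) (hb : b ∈ gaussRing O res),
      a ∈ modularFunctionFieldFullC E N ∧ b ∈ modularFunctionFieldFullC E N ∧
      (evE O (jqModC E)).IsIntegralElem a ∧ (evE O (jqModC E)).IsIntegralElem b ∧
      gaussRed O res ⟨b, hb⟩ ≠ 0 ∧ z * gaussRed O res ⟨b, hb⟩ = gaussRed O res ⟨a, ha⟩ := by
  obtain ⟨y, hy, hbasis⟩ := exists_uniform_basis A N
  obtain ⟨hspanκ, -⟩ := hbasis κ hN
  obtain ⟨g', f', hg', hrel'⟩ := exists_cleared_of_mem_span (isFrac_top κ) _ (hspanκ z hz)
  simp only [evE_top_eq_aeval] at hrel'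
  obtain ⟨g, hg⟩ := Polynomial.map_surjective res hsurj (g'.map (⊤ : Subring κ).subtype)
  have hf : ∀ i, ∃ P : Polynomial O, P.map res = (f' i).map (⊤ : Subring κ).subtype :=
    fun i => Polynomial.map_surjective res hsurj _
  choose f hf using hf
  have hgne : g.map res ≠ 0 := by
    rw [hg]
    exact (Polynomial.map_ne_zero_iff Subtype.val_injective).mpr hg'
  have hjE := j_mem_gaussRing O res (E := E)
  have hjF : jqModC E ∈ modularFunctionFieldFullC E N := jqModC_mem_full E N
  -- the numerator
  set a : LaurentSeries E := ∑ i, evE O (jqModC E) (f i) * coeffMap (Int.castRingHom E) (y i)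
    with ha_def
  have haV : a ∈ gaussRing O res :=
    sum_mem fun i _ => mul_mem (evE_mem_gaussRing hjE _) (intCast_mem_gaussRing O res _)
  have haF : a ∈ modularFunctionFieldFullC E N :=
    sum_mem fun i _ => mul_mem (evE_mem_full N hjF _) (coeffMap_intCast_mem_full E N (hy i))
  have haI : (evE O (jqModC E)).IsIntegralElem a := by
    letI : Algebra (Polynomial O) (LaurentSeries E) := (evE O (jqModC E)).toAlgebra
    show IsIntegral (Polynomial O) _
    refine IsIntegral.sum _ fun i _ => ?_
    exact IsIntegral.mul (isIntegral_algebraMap (x := f i)) (isIntegralElem_basis A N (hy i))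
  have hared : gaussRed O res ⟨a, haV⟩ =
      ∑ i, Polynomial.aeval (jqModC κ) ((f i).map res) * coeffMap (Int.castRingHom κ) (y i) := by
    have h1 := gaussRed_relation (res := res) y haV 1 f (by rw [map_one, one_mul])
    rwa [Polynomial.map_one, map_one, one_mul] at h1
  refine ⟨a, evE O (jqModC E) g, haV, evE_mem_gaussRing hjE g, haF, evE_mem_full N hjF g, haI,
    (evE O (jqModC E)).isIntegralElem_map, ?_, ?_⟩
  · rw [gaussRed_evE_j]
    exact aeval_j_ne_zero hgne
  · rw [gaussRed_evE_j, hared, hg, mul_comm, hrel']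
    refine Finset.sum_congr rfl fun i _ => ?_
    rw [hf i]

/-- **(T3')** The reduction `F_E ∩ V → F_κ` is surjective. -/
theorem exists_preimage (A : AnalyticInputs) (hsurj : Function.Surjective res)
    (N : ℕ) [NeZero N] (hN : (N : κ) ≠ 0)
    {z : LaurentSeries κ} (hz : z ∈ modularFunctionFieldFullC κ N) :
    ∃ (x : LaurentSeries E) (hx : x ∈ gaussRing O res),
      x ∈ modularFunctionFieldFullC E N ∧ gaussRed O res ⟨x, hx⟩ = z := by
  obtain ⟨a, b, ha, hb, haF, hbF, -, -, hbne, hrel⟩ :=
    exists_lift (E := E) (O := O) A hsurj N hN hz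
  have hbinv := inv_mem_gaussRing_of_gaussRed_ne_zero ⟨b, hb⟩ hbne
  have hb0 : b ≠ 0 := by
    rintro rfl
    apply hbne
    have : (⟨0, hb⟩ : gaussRing O res) = 0 := rfl
    rw [this, map_zero]
  refine ⟨a * b⁻¹, mul_mem ha hbinv, mul_mem haF (inv_mem hbF), ?_⟩
  have h1 : (⟨a * b⁻¹, mul_mem ha hbinv⟩ : gaussRing O res) * ⟨b, hb⟩ = ⟨a, ha⟩ := by
    apply Subtype.ext
    show a * b⁻¹ * b = a
    rw [mul_assoc, inv_mul_cancel₀ hb0, mul_one]
  have h2 := congrArg (gaussRed O res) h1
  rw [map_mul, ← hrel] at h2
  exact mul_right_cancel₀ hbne h2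

end Lift

section DVR

open IsLocalRing

variable {E : Type} [Field E] (O : Subring E) [IsDiscreteValuationRing O]

/-- A discrete valuation subring with its residue map and a uniformiser is `UnifData`. -/
theorem unifData_residue {ϖ : O} (hϖ : Irreducible ϖ) : UnifData O (residue O) ϖ := by
  have hmax : maximalIdeal O = Ideal.span {ϖ} := hϖ.maximalIdeal_eq
  refine ⟨?_, hϖ.ne_zero, ?_⟩
  · intro x
    rw [residue_eq_zero_iff, hmax, Ideal.mem_span_singleton']
    constructor
    · rintro ⟨y, hy⟩
      exact ⟨y, by rw [← hy, mul_comm]⟩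
    · rintro ⟨y, hy⟩
      exact ⟨y, by rw [hy, mul_comm]⟩
  · intro x hx
    obtain ⟨n, u, hu⟩ := IsDiscreteValuationRing.eq_unit_mul_pow_irreducible hx hϖ
    refine ⟨n, (u : O), by rw [hu, mul_comm], ?_⟩
    intro h0
    rw [residue_eq_zero_iff] at h0
    exact (IsLocalRing.mem_maximalIdeal _).mp h0 u.isUnit

/-- A valuation subring has `E` as fraction field. -/
theorem isFrac_valuationSubring (V : ValuationSubring E) : IsFrac V.toSubring := by
  intro e
  rcases V.mem_or_inv_mem e with he | he
  · exact ⟨⟨e, he⟩, 1, one_ne_zero, by simp⟩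
  · by_cases he0 : e = 0
    · subst he0
      exact ⟨0, 1, one_ne_zero, by simp⟩
    · refine ⟨1, ⟨e⁻¹, he⟩, ?_, ?_⟩
      · intro h0
        have := congrArg Subtype.val h0
        simp at this
        exact he0 this
      · show e * e⁻¹ = 1
        exact mul_inv_cancel₀ he0

end DVR

end Fermat.Agent.S18.H208

end
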