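/-
S18 / M1 (helper208): MOD piece M1 = the S28 outputs over a general discrete valuation ring.

SETTING.  `E` a field, `O : Subring E` a discrete valuation ring with fraction field `E`
(`IsFrac O`), `res : O →+* κ` a ring homomorphism to a field with kernel the maximal ideal
(NOT necessarily surjective: `κ` may be the residue field of a bigger valuation ring),
`N ≥ 1` invertible in `κ`.  `F_E = modularFunctionFieldFullC E N ⊆ E((q))`,
`F_κ = modularFunctionFieldFullC κ N ⊆ κ((q))`.

`V = gaussRing O res ⊆ E((q))` is the Gauss valuation ring (helper86), with reduction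
`gaussRed O res : V →+* κ((q))`.  Integrality over the chart ring `O[t]` (`t = j` or `j⁻¹`) is
expressed as `(evE O t).IsIntegralElem x`, `evE O t : O[X] →+* E((q))`, `P ↦ P(t)`.

RESULTS (all unconditional):
* `M1.mem_gaussRing_fin / _inf` : elements of `F_E` integral over `O[j]` / `O[j⁻¹]` lie in `V`.
* `M1.gaussRed_mem`             : the reduction of `F_E ∩ V` lies in `F_κ`.
* `M1.qep_fin / qep_inf`        : QEP = kernel of the reduction on the chart is `ϖ · chart`.
* `M1.denominators_fin / _inf`  : `F_E ∩ V` is the localisation of the chart at `(ϖ)`.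
* `M1.relfinrank_eq`            : `[F_k : k(j)] = ψ(N)` for `k = E` and `k = κ`.
* `M1.isSeparable`              : `F_κ / κ(j)` (and `F_E / E(j)`) is separable.
* `M1.exists_lift / exists_preimage` : (res surjective) `Frac(red(chart)) = F_κ`.
-/
import Mathlib
import Fermat.Agent.S18.H208.Fibre
import Fermat.Agent.S28.H807.Analytic
import Fermat.Agent.S28.H25.Theta

set_option autoImplicit false
set_option linter.unusedSectionVars false
set_option linter.style.haveILetI false

noncomputable section

namespace Fermat.Agent.S18.H208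

open ModularCurve HahnSeries Polynomial Fermat.Agent.S28 Fermat.Agent.S28.H86 IsLocalRing

/-- The analytic inputs of S28, as proved on main. -/
theorem analyticInputs : AnalyticInputs where
  modPoly := fun p _ hp => S28.H807.nonempty_modPolyData p hp
  unitPoly := fun p _ hp => S28.H807.nonempty_unitPolyData p hp
  theta := S28.H25.theta_identity

namespace M1

variable {E : Type} [Field E] {O : Subring E} [IsDiscreteValuationRing O]
  {κ : Type} [Field κ] {res : O →+* κ}

/-- `UnifData` from a DVR, a uniformiser and a residue map with kernel the maximal ideal. -/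
theorem unifData (hker : ∀ x : O, res x = 0 ↔ x ∈ maximalIdeal O) {ϖ : O}
    (hϖ : Irreducible ϖ) : UnifData O res ϖ := by
  have h := unifData_residue O hϖ
  refine ⟨fun x => ?_, h.ne_zero, fun x hx => ?_⟩
  · rw [hker, ← residue_eq_zero_iff]
    exact h.ker x
  · obtain ⟨n, y, hy, hres⟩ := h.prim x hx
    refine ⟨n, y, hy, fun h0 => hres ?_⟩
    rw [residue_eq_zero_iff, ← hker]
    exact h0

theorem natCast_ne_zero (res : O →+* κ) {N : ℕ} (hN : (N : κ) ≠ 0) : (N : E) ≠ 0 :=
  natCast_ne_zero_of_res res hN

variable (hker : ∀ x : O, res x = 0 ↔ x ∈ maximalIdeal O) (hfrac : IsFrac O)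
  (N : ℕ) [NeZero N] (hN : (N : κ) ≠ 0)

include hker hfrac in
/-- Elements of `F_E` integral over `O[j]` lie in the Gauss ring. -/
theorem mem_gaussRing_fin {x : LaurentSeries E} (hxF : x ∈ modularFunctionFieldFullC E N)
    (hint : (evE O (jqModC E)).IsIntegralElem x) : x ∈ gaussRing O res := by
  obtain ⟨ϖ, hϖ⟩ := IsDiscreteValuationRing.exists_irreducible O
  exact mem_gaussRing_of_isIntegralElem (unifData hker hϖ) (j_mem_gaussRing O res)
    (full_le_gaussFrac hfrac N hxF) hint

include hker hfrac in
/-- Elements of `F_E` integral over `O[j⁻¹]` lie in the Gauss ring. -/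
theorem mem_gaussRing_inf {x : LaurentSeries E} (hxF : x ∈ modularFunctionFieldFullC E N)
    (hint : (evE O (jqModC E)⁻¹).IsIntegralElem x) : x ∈ gaussRing O res := by
  obtain ⟨ϖ, hϖ⟩ := IsDiscreteValuationRing.exists_irreducible O
  exact mem_gaussRing_of_isIntegralElem (unifData hker hϖ) j_inv_mem_gaussRing
    (full_le_gaussFrac hfrac N hxF) hint

include hker hfrac hN in
/-- The reduction of `F_E ∩ V` lies in `F_κ`. -/
theorem gaussRed_mem {x : LaurentSeries E} (hxF : x ∈ modularFunctionFieldFullC E N)
    (hx : x ∈ gaussRing O res) : gaussRed O res ⟨x, hx⟩ ∈ modularFunctionFieldFullC κ N := by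
  obtain ⟨ϖ, hϖ⟩ := IsDiscreteValuationRing.exists_irreducible O
  exact gaussRed_mem_full analyticInputs (unifData hker hϖ) hfrac N hN hxF hx

include hker hfrac hN in
/-- **QEP, finite chart.** -/
theorem qep_fin {ϖ : O} (hϖ : Irreducible ϖ)
    {x : LaurentSeries E} (hxF : x ∈ modularFunctionFieldFullC E N)
    (hint : (evE O (jqModC E)).IsIntegralElem x)
    (hx : x ∈ gaussRing O res) (hred : gaussRed O res ⟨x, hx⟩ = 0) :
    ∃ x' : LaurentSeries E, x' ∈ modularFunctionFieldFullC E N ∧
      (evE O (jqModC E)).IsIntegralElem x' ∧ x = HahnSeries.C (ϖ : E) * x' :=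
  kernel_fin analyticInputs (unifData hker hϖ) hfrac N hN hxF hint hx hred

include hker hfrac hN in
/-- **QEP, chart at infinity.** -/
theorem qep_inf {ϖ : O} (hϖ : Irreducible ϖ)
    {x : LaurentSeries E} (hxF : x ∈ modularFunctionFieldFullC E N)
    (hint : (evE O (jqModC E)⁻¹).IsIntegralElem x)
    (hx : x ∈ gaussRing O res) (hred : gaussRed O res ⟨x, hx⟩ = 0) :
    ∃ x' : LaurentSeries E, x' ∈ modularFunctionFieldFullC E N ∧
      (evE O (jqModC E)⁻¹).IsIntegralElem x' ∧ x = HahnSeries.C (ϖ : E) * x' :=
  kernel_inf analyticInputs (unifData hker hϖ) hfrac N hN hxF hint hx hred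

include hker hfrac hN in
/-- **Denominators, finite chart**: `F_E ∩ V` is the localisation of the chart at `(ϖ)`. -/
theorem denominators_fin {x : LaurentSeries E} (hxF : x ∈ modularFunctionFieldFullC E N)
    (hx : x ∈ gaussRing O res) :
    ∃ s : Polynomial O, s.map res ≠ 0 ∧
      (evE O (jqModC E)).IsIntegralElem (evE O (jqModC E) s * x) := by
  obtain ⟨ϖ, hϖ⟩ := IsDiscreteValuationRing.exists_irreducible O
  exact hasDenominators_j analyticInputs (unifData hker hϖ) hfrac N hN x hxF hx

include hker hfrac hN in
/-- **Denominators, chart at infinity.** -/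
theorem denominators_inf {x : LaurentSeries E} (hxF : x ∈ modularFunctionFieldFullC E N)
    (hx : x ∈ gaussRing O res) :
    ∃ s : Polynomial O, s.map res ≠ 0 ∧
      (evE O (jqModC E)⁻¹).IsIntegralElem (evE O (jqModC E)⁻¹ s * x) := by
  obtain ⟨ϖ, hϖ⟩ := IsDiscreteValuationRing.exists_irreducible O
  exact (hasDenominators_j analyticInputs (unifData hker hϖ) hfrac N hN).inv
    (S28.H145.jqModC_ne_zero' E) x hxF hx

/-- `[F_k : k(j)] = ψ(N)` for every field `k` in which `N` is invertible. -/
theorem relfinrank_eq (k : Type) [Field k] (N : ℕ) [NeZero N] (hN : (N : k) ≠ 0) :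
    (jField k).relfinrank (modularFunctionFieldFullC k N) = dedekindPsi N :=
  relfinrank_full analyticInputs k N hN

/-- `F_k / k(j)` is separable for every field `k` in which `N` is invertible. -/
theorem isSeparable (k : Type) [Field k] (N : ℕ) [NeZero N] (hN : (N : k) ≠ 0)
    {x : LaurentSeries k} (hx : x ∈ modularFunctionFieldFullC k N) :
    IsSeparable (jField k) x :=
  isSeparable_full k analyticInputs N hN hx

/-- The uniform integral basis. -/
theorem exists_basis (N : ℕ) [NeZero N] :
    ∃ y : Fin (dedekindPsi N) → LaurentSeries ℤ,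
      (∀ i, y i ∈ Subring.closure (intDivisorExpansions N)) ∧
      ∀ (k : Type) [Field k], (N : k) ≠ 0 →
        (∀ x ∈ modularFunctionFieldFullC k N,
          x ∈ Submodule.span (jField k)
            (Set.range fun i => coeffMap (Int.castRingHom k) (y i))) ∧
        LinearIndependent (jField k) (fun i => coeffMap (Int.castRingHom k) (y i)) :=
  exists_uniform_basis analyticInputs N

include hN in
/-- Every element of `F_κ` is a quotient of reductions of chart elements (`res` onto). -/
theorem exists_lift' (hsurj : Function.Surjective res)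
    {z : LaurentSeries κ} (hz : z ∈ modularFunctionFieldFullC κ N) :
    ∃ (a b : LaurentSeries E) (ha : a ∈ gaussRing O res) (hb : b ∈ gaussRing O res),
      a ∈ modularFunctionFieldFullC E N ∧ b ∈ modularFunctionFieldFullC E N ∧
      (evE O (jqModC E)).IsIntegralElem a ∧ (evE O (jqModC E)).IsIntegralElem b ∧
      gaussRed O res ⟨b, hb⟩ ≠ 0 ∧ z * gaussRed O res ⟨b, hb⟩ = gaussRed O res ⟨a, ha⟩ :=
  exists_lift analyticInputs hsurj N hN hz

include hN in
/-- The reduction `F_E ∩ V → F_κ` is surjective (`res` onto). -/
theorem exists_preimage' (hsurj : Function.Surjective res)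
    {z : LaurentSeries κ} (hz : z ∈ modularFunctionFieldFullC κ N) :
    ∃ (x : LaurentSeries E) (hx : x ∈ gaussRing O res),
      x ∈ modularFunctionFieldFullC E N ∧ gaussRed O res ⟨x, hx⟩ = z :=
  exists_preimage analyticInputs hsurj N hN hz

end M1

end Fermat.Agent.S18.H208

end
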