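/-
S18 / M1 (helper208): the UNIFORM BASIS of the modular function fields.

`exists_uniform_basis` : from the three analytic inputs of S28 (all proved on main) there are
`ψ(N)` integral monomials `y i ∈ ℤ[j(q^d) : d ∣ N] ⊆ ℤ((q))` whose images in `k((q))` form a
`k(j)`-basis of `F_{N,k} = modularFunctionFieldFullC k N`, for EVERY field `k` in which `N` is
invertible (characteristic `0` or `ℓ ∤ N`).
-/
import Mathlib
import Fermat.Agent.S28.H867.Core
import Fermat.Agent.S28.H208.Upper

set_option autoImplicit false

noncomputable section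

namespace Fermat.Agent.S18.H208

open ModularCurve HahnSeries Fermat.Agent.S28

/-- The three analytic inputs of S28 (modular polynomial, unit polynomial, theta identity). -/
structure AnalyticInputs : Prop where
  modPoly : ∀ (p : ℕ) [NeZero p], p.Prime → Nonempty (ModPolyData p)
  unitPoly : ∀ (p : ℕ) [NeZero p], p.Prime → Nonempty (UnitPolyData p)
  theta : (thetaL ℤ (jqModC ℤ)) ^ 6 = deltaL ℤ * (jqModC ℤ) ^ 4 * (jqModC ℤ - 1728) ^ 3

theorem natCast_prime_ne_zero_of_dvd {k : Type*} [Field k] {N : ℕ} (hN : (N : k) ≠ 0)
    (p : ℕ) (hpN : p ∣ N) : (p : k) ≠ 0 := by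
  intro h0
  obtain ⟨m, rfl⟩ := hpN
  apply hN
  rw [Nat.cast_mul, h0, zero_mul]

/-- `Good k N` (helper867) from the analytic inputs. -/
theorem good_of_analytic (A : AnalyticInputs) (k : Type*) [Field k] (N : ℕ) [NeZero N]
    (hN : (N : k) ≠ 0) : S28.H867.Good k N :=
  S28.H867.good_of_inputs k N (NeZero.ne N)
    (fun p hp _ _ => A.modPoly p hp) (fun p hp _ _ => A.unitPoly p hp) A.theta
    (fun p _ hpN => natCast_prime_ne_zero_of_dvd hN p hpN)

/-- **Uniform basis.** -/
theorem exists_uniform_basis (A : AnalyticInputs) (N : ℕ) [NeZero N] :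
    ∃ y : Fin (dedekindPsi N) → LaurentSeries ℤ,
      (∀ i, y i ∈ Subring.closure (intDivisorExpansions N)) ∧
      ∀ (k : Type) [Field k], (N : k) ≠ 0 →
        (∀ x ∈ modularFunctionFieldFullC k N,
          x ∈ Submodule.span (jField k)
            (Set.range fun i => coeffMap (Int.castRingHom k) (y i))) ∧
        LinearIndependent (jField k) (fun i => coeffMap (Int.castRingHom k) (y i)) := by
  obtain ⟨n, y, hn, hy, hspan⟩ := S28.H208.exists_spanning_monomials N (NeZero.ne N)
    (S28.H208.hasModPoly_of_nonempty A.modPoly N)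
  subst hn
  refine ⟨y, hy, fun k _ hNk => ⟨hspan k hNk, ?_⟩⟩
  classical
  obtain ⟨x, hxF, hxli⟩ := (good_of_analytic A k N hNk).exists_linearIndependent
  set v : Fin (dedekindPsi N) → LaurentSeries k := fun i => coeffMap (Int.castRingHom k) (y i)
    with hv
  set W : Submodule (jField k) (LaurentSeries k) := Submodule.span (jField k) (Set.range v)
    with hW
  have hxW : ∀ i, x i ∈ W := fun i => hspan k hNk (x i) (hxF i)
  have hli' : LinearIndependent (jField k) (fun i => (⟨x i, hxW i⟩ : W)) := by
    apply LinearIndependent.of_comp W.subtype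
    exact hxli
  have : Module.Finite (jField k) W := Module.Finite.span_of_finite _ (Set.finite_range v)
  have h1 : Fintype.card (Fin (dedekindPsi N)) ≤ Module.finrank (jField k) W :=
    hli'.fintype_card_le_finrank
  have h2 : Module.finrank (jField k) W ≤ Fintype.card (Fin (dedekindPsi N)) := by
    have := finrank_range_le_card (R := jField k) v
    simpa [Set.finrank, hW] using this
  rw [linearIndependent_iff_card_eq_finrank_span]
  exact le_antisymm h1 h2

end Fermat.Agent.S18.H208

end
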