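/-
S18 / M1 (helper208): the Gauss valuation layer of the modular function field over a general
discrete valuation ring `O ⊆ E` (in the `UnifData` form of helper86's `GaussGen`).

Setting: `E` a field, `O : Subring E`, `res : O →+* κ` with kernel `(π)`.
`F_E = modularFunctionFieldFullC E N ⊆ E((q))`, `F_κ = modularFunctionFieldFullC κ N ⊆ κ((q))`.
-/
import Mathlib
import Fermat.Agent.S28.H86.GaussGen
import Fermat.Agent.S28.H865Integral
import Fermat.Agent.S28.H806.Transcend
import Fermat.Agent.S28.H508.CoreToBasis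
import Fermat.Agent.S18.H208.Basis

set_option autoImplicit false
set_option linter.unusedSectionVars false
set_option linter.style.haveILetI false

noncomputable section

namespace Fermat.Agent.S18.H208

open ModularCurve HahnSeries Polynomial Fermat.Agent.S28 Fermat.Agent.S28.H86

section IntSeries

variable {E : Type} [Field E] (O : Subring E) {κ : Type} [Field κ] (res : O →+* κ)

/-- An integer series viewed in `O((q))`. -/
def intO (w : LaurentSeries ℤ) : LaurentSeries O := coeffMap (Int.castRingHom O) w

theorem inclL_intO (w : LaurentSeries ℤ) :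
    inclL O (intO O w) = coeffMap (Int.castRingHom E) w := by
  rw [intO, inclL, coeffMap_coeffMap]
  exact coeffMap_congr (RingHom.ext_int _ _) w

theorem redL_intO (w : LaurentSeries ℤ) :
    redL res (intO O w) = coeffMap (Int.castRingHom κ) w := by
  rw [intO, redL, coeffMap_coeffMap]
  exact coeffMap_congr (RingHom.ext_int _ _) w

theorem intCast_mem_gaussRing (w : LaurentSeries ℤ) :
    coeffMap (Int.castRingHom E) w ∈ gaussRing O res := by
  rw [← inclL_intO O]
  exact inclL_mem_gaussRing res _

theorem gaussRed_intCast (w : LaurentSeries ℤ) :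
    gaussRed O res ⟨coeffMap (Int.castRingHom E) w, intCast_mem_gaussRing O res w⟩ =
      coeffMap (Int.castRingHom κ) w := by
  have : (⟨coeffMap (Int.castRingHom E) w, intCast_mem_gaussRing O res w⟩ : gaussRing O res) =
      ⟨inclL O (intO O w), inclL_mem_gaussRing res _⟩ := Subtype.ext (inclL_intO O w).symm
  rw [this, gaussRed_inclL, redL_intO]

/-- `j(q^d)` over any ring comes from `ℤ((q))`. -/
theorem jd_eq_intCast (R : Type*) [CommRing R] (d : ℕ) [NeZero d] :
    qExpand R d (jqModC R) = coeffMap (Int.castRingHom R) (qExpand ℤ d (jqModC ℤ)) := by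
  rw [coeffMap_qExpand, coeffMap_jqModC]

theorem j_eq_intCast (R : Type*) [CommRing R] :
    jqModC R = coeffMap (Int.castRingHom R) (jqModC ℤ) := (coeffMap_jqModC _).symm

theorem j_mem_gaussRing : jqModC E ∈ gaussRing O res := by
  rw [j_eq_intCast E]; exact intCast_mem_gaussRing O res _

theorem gaussRed_j : gaussRed O res ⟨jqModC E, j_mem_gaussRing O res⟩ = jqModC κ := by
  have : (⟨jqModC E, j_mem_gaussRing O res⟩ : gaussRing O res) =
      ⟨coeffMap (Int.castRingHom E) (jqModC ℤ), intCast_mem_gaussRing O res _⟩ :=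
    Subtype.ext (j_eq_intCast E)
  rw [this, gaussRed_intCast, coeffMap_jqModC]

end IntSeries

section Frac

variable {E : Type} [Field E] (O : Subring E)

/-- `E` is the fraction field of `O`, elementwise. -/
def IsFrac : Prop := ∀ e : E, ∃ a b : O, b ≠ 0 ∧ e * (b : E) = (a : E)

variable {O}

theorem C_mem_gaussFrac (hfrac : IsFrac O) (e : E) :
    (HahnSeries.C e : LaurentSeries E) ∈ gaussFrac O := by
  obtain ⟨a, b, hb, hab⟩ := hfrac e
  refine ⟨HahnSeries.C a, HahnSeries.C b, ?_, ?_⟩
  · intro h0
    apply hb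
    have := congrArg (fun x : LaurentSeries O => x.coeff 0) h0
    simpa using this
  · rw [inclL_C, inclL_C, ← map_mul, hab]

theorem algebraMap_mem_gaussFrac (hfrac : IsFrac O) (e : E) :
    algebraMap E (LaurentSeries E) e ∈ gaussFrac O := by
  have : algebraMap E (LaurentSeries E) e = HahnSeries.C e := by
    rw [algebraMap_laurentSeries_eq_single]; rfl
  rw [this]
  exact C_mem_gaussFrac hfrac e

/-- **(T1)** The modular function field lies in the fraction field of the Gauss ring. -/
theorem full_le_gaussFrac (hfrac : IsFrac O) (N : ℕ) {x : LaurentSeries E}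
    (hx : x ∈ modularFunctionFieldFullC E N) : x ∈ gaussFrac O := by
  let G : IntermediateField E (LaurentSeries E) :=
    (gaussFrac O).toIntermediateField (algebraMap_mem_gaussFrac hfrac)
  have hle : modularFunctionFieldFullC E N ≤ G := by
    rw [modularFunctionFieldFullC, IntermediateField.adjoin_le_iff]
    rintro _ ⟨d, hd, -, rfl⟩
    show qExpand E d (jqModC E) ∈ gaussFrac O
    rw [jd_eq_intCast E d, ← inclL_intO O]
    exact inclL_mem_gaussFrac _
  exact hle hx

end Frac

section Eval

variable {E : Type} [Field E] (O : Subring E) {κ : Type} [Field κ] (res : O →+* κ) {π : O}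

/-- Constants `O → V`. -/
def constV : O →+* gaussRing O res where
  toFun c := ⟨HahnSeries.C (c : E), by rw [← inclL_C]; exact inclL_mem_gaussRing res _⟩
  map_one' := Subtype.ext (by simp)
  map_mul' a b := Subtype.ext (by simp)
  map_zero' := Subtype.ext (by simp)
  map_add' a b := Subtype.ext (by simp)

@[simp] theorem coe_constV (c : O) :
    ((constV O res c : gaussRing O res) : LaurentSeries E) = HahnSeries.C (c : E) := rfl

theorem gaussRed_constV (c : O) : gaussRed O res (constV O res c) = HahnSeries.C (res c) := by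
  have : constV O res c = ⟨inclL O (HahnSeries.C c), inclL_mem_gaussRing res _⟩ :=
    Subtype.ext (inclL_C c).symm
  rw [this, gaussRed_inclL, redL_C]

/-- Evaluation `O[X] → V`, `P ↦ P(t)`. -/
def evV (t : gaussRing O res) : Polynomial O →+* gaussRing O res :=
  Polynomial.eval₂RingHom (constV O res) t

/-- Evaluation `O[X] → E((q))`, `P ↦ P(t)`. -/
def evE (t : LaurentSeries E) : Polynomial O →+* LaurentSeries E :=
  Polynomial.eval₂RingHom ((HahnSeries.C : E →+* LaurentSeries E).comp O.subtype) t

variable {O res}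

theorem coe_evV (t : gaussRing O res) (P : Polynomial O) :
    ((evV O res t P : gaussRing O res) : LaurentSeries E) = evE O (t : LaurentSeries E) P := by
  show (gaussRing O res).subtype (Polynomial.eval₂ (constV O res) t P) = _
  rw [Polynomial.hom_eval₂]
  rfl

theorem evE_mem_gaussRing {t : LaurentSeries E} (ht : t ∈ gaussRing O res) (P : Polynomial O) :
    evE O t P ∈ gaussRing O res := by
  rw [← coe_evV ⟨t, ht⟩ P]
  exact (evV O res ⟨t, ht⟩ P).2

theorem gaussRed_evV (t : gaussRing O res) (P : Polynomial O) :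
    gaussRed O res (evV O res t P) = Polynomial.aeval (gaussRed O res t) (P.map res) := by
  show gaussRed O res (Polynomial.eval₂ (constV O res) t P) = _
  rw [Polynomial.hom_eval₂, Polynomial.aeval_def, Polynomial.eval₂_map]
  congr 1
  ext c : 1
  rw [RingHom.comp_apply, RingHom.comp_apply, gaussRed_constV, algebraMap_laurentSeries_eq_single]
  rfl

theorem evE_C (t : LaurentSeries E) (c : O) :
    evE O t (Polynomial.C c) = HahnSeries.C (c : E) := by
  simp [evE]

theorem evE_C_pi (t : LaurentSeries E) : evE O t (Polynomial.C π) = piL O π := evE_C t π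

/-- Injectivity of the evaluation at a series of nonzero order. -/
theorem evE_injective {t : LaurentSeries E} (ht0 : t ≠ 0) (hto : t.order ≠ 0) :
    Function.Injective (evE O t) := by
  rw [injective_iff_map_eq_zero]
  intro P hP
  have h1 : Polynomial.aeval t (P.map O.subtype) = 0 := by
    rw [Polynomial.aeval_def, Polynomial.eval₂_map]
    have : (algebraMap E (LaurentSeries E)).comp O.subtype =
        (HahnSeries.C : E →+* LaurentSeries E).comp O.subtype := by
      ext c : 1
      rw [RingHom.comp_apply, RingHom.comp_apply, algebraMap_laurentSeries_eq_single]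
      rfl
    rw [this]
    exact hP
  have h2 : P.map O.subtype = 0 := by
    by_contra hne
    exact aeval_ne_zero_of_order_ne_zero ht0 hto hne h1
  exact (Polynomial.map_eq_zero_iff (Subtype.val_injective)).mp h2

end Eval

section Clear

variable {E : Type} [Field E] {O : Subring E}

/-- Every element of `E(j)` is a quotient of two polynomials in `j` with coefficients in `O`. -/
theorem exists_O_fraction (hfrac : IsFrac O) {c : LaurentSeries E} (hc : c ∈ jField E) :
    ∃ f g : Polynomial O, evE O (jqModC E) g ≠ 0 ∧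
      evE O (jqModC E) g * c = evE O (jqModC E) f := by
  unfold jField at hc
  induction hc using IntermediateField.adjoin_induction with
  | mem x hx =>
    rw [Set.mem_singleton_iff] at hx
    subst hx
    refine ⟨Polynomial.X, 1, ?_, ?_⟩
    · rw [map_one]; exact one_ne_zero
    · rw [map_one, one_mul]
      simp [evE]
  | algebraMap r =>
    obtain ⟨a, b, hb, hab⟩ := hfrac r
    refine ⟨Polynomial.C a, Polynomial.C b, ?_, ?_⟩
    · rw [evE_C]
      exact (map_ne_zero_iff _ HahnSeries.C_injective).mpr
        (fun h0 => hb (Subtype.ext h0))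
    · rw [evE_C, evE_C, algebraMap_laurentSeries_eq_single]
      show HahnSeries.C (b : E) * HahnSeries.C r = HahnSeries.C (a : E)
      rw [← map_mul, mul_comm, hab]
  | add x y _ _ hx hy =>
    obtain ⟨f₁, g₁, hg₁, h₁⟩ := hx
    obtain ⟨f₂, g₂, hg₂, h₂⟩ := hy
    refine ⟨f₁ * g₂ + f₂ * g₁, g₁ * g₂, ?_, ?_⟩
    · rw [map_mul]; exact mul_ne_zero hg₁ hg₂
    · rw [map_mul, map_add, map_mul, map_mul, ← h₁, ← h₂]; ring
  | inv x _ hx =>
    obtain ⟨f, g, hg, h⟩ := hx
    by_cases hf : evE O (jqModC E) f = 0
    · have hx0 : x = 0 := by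
        rw [hf] at h
        exact (mul_eq_zero.mp h).resolve_left hg
      refine ⟨0, 1, ?_, ?_⟩
      · rw [map_one]; exact one_ne_zero
      · rw [hx0, inv_zero, mul_zero, map_zero]
    · refine ⟨g, f, hf, ?_⟩
      have hx0 : x ≠ 0 := by
        rintro rfl
        rw [mul_zero] at h
        exact hf h.symm
      rw [← h]
      field_simp
  | mul x y _ _ hx hy =>
    obtain ⟨f₁, g₁, hg₁, h₁⟩ := hx
    obtain ⟨f₂, g₂, hg₂, h₂⟩ := hy
    refine ⟨f₁ * f₂, g₁ * g₂, ?_, ?_⟩
    · rw [map_mul]; exact mul_ne_zero hg₁ hg₂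
    · rw [map_mul, map_mul, ← h₁, ← h₂]; ring

/-- Clearing denominators in an `E(j)`-linear combination. -/
theorem exists_cleared_of_mem_span (hfrac : IsFrac O) {n : ℕ} (v : Fin n → LaurentSeries E)
    {x : LaurentSeries E} (hx : x ∈ Submodule.span (jField E) (Set.range v)) :
    ∃ (g : Polynomial O) (f : Fin n → Polynomial O), g ≠ 0 ∧
      evE O (jqModC E) g * x = ∑ i, evE O (jqModC E) (f i) * v i := by
  obtain ⟨c, rfl⟩ := (Submodule.mem_span_range_iff_exists_fun (jField E)).mp hx
  have hc : ∀ i, ∃ f g : Polynomial O, evE O (jqModC E) g ≠ 0 ∧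
      evE O (jqModC E) g * (c i : LaurentSeries E) = evE O (jqModC E) f :=
    fun i => exists_O_fraction hfrac (c i).2
  choose f g hg hfg using hc
  refine ⟨∏ i, g i, fun i => f i * ∏ k ∈ Finset.univ.erase i, g k, ?_, ?_⟩
  · intro h0
    have : evE O (jqModC E) (∏ i, g i) = 0 := by rw [h0, map_zero]
    rw [map_prod] at this
    obtain ⟨i, -, hi⟩ := Finset.prod_eq_zero_iff.mp this
    exact hg i hi
  · rw [Finset.mul_sum]
    refine Finset.sum_congr rfl fun i _ => ?_
    rw [← Finset.mul_prod_erase Finset.univ g (Finset.mem_univ i), map_mul, map_mul,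
      IntermediateField.smul_def, smul_eq_mul, ← hfg i]
    ring

end Clear

section Indep

variable {κ : Type} [Field κ]

/-- Linear independence over `κ(j)` in polynomial form. -/
theorem poly_indep {n : ℕ} {v : Fin n → LaurentSeries κ}
    (hli : LinearIndependent (jField κ) v) (f : Fin n → Polynomial κ)
    (hf : ∑ i, Polynomial.aeval (jqModC κ) (f i) * v i = 0) : ∀ i, f i = 0 := by
  have hmem : ∀ i, Polynomial.aeval (jqModC κ) (f i) ∈ jField κ := fun i =>
    IntermediateField.algebra_adjoin_le_adjoin _ _ (Polynomial.aeval_mem_adjoin_singleton _ _)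
  have h0 := Fintype.linearIndependent_iff.mp hli
    (fun i => ⟨Polynomial.aeval (jqModC κ) (f i), hmem i⟩) (by
      simpa [IntermediateField.smul_def] using hf)
  intro i
  have hi := congrArg Subtype.val (h0 i)
  simp only [ZeroMemClass.coe_zero] at hi
  by_contra hne
  exact aeval_ne_zero_of_order_ne_zero (S28.H145.jqModC_ne_zero' κ)
    (by rw [S28.H145.order_jqModC]; decide) hne hi

end Indep

section Denominator

variable {E : Type} [Field E] {O : Subring E} {κ : Type} [Field κ] {res : O →+* κ} {π : O}

theorem exists_eq_C_mul_of_map_eq_zero (h : UnifData O res π) {P : Polynomial O}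
    (hP : P.map res = 0) : ∃ P' : Polynomial O, P = Polynomial.C π * P' := by
  have hmem : P ∈ Ideal.map (Polynomial.C : O →+* Polynomial O) (Ideal.span {π}) := by
    rw [Ideal.mem_map_C_iff]
    intro n
    have hn : res (P.coeff n) = 0 := by
      have := congrArg (fun Q => Q.coeff n) hP
      simpa using this
    obtain ⟨y, hy⟩ := (h.ker _).mp hn
    exact Ideal.mem_span_singleton'.mpr ⟨y, by rw [hy, mul_comm]⟩
  rw [Ideal.map_span, Set.image_singleton, Ideal.mem_span_singleton'] at hmem
  obtain ⟨P', hP'⟩ := hmem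
  exact ⟨P', by rw [← hP', mul_comm]⟩

theorem map_res_C_pi_mul (h : UnifData O res π) (P : Polynomial O) :
    (Polynomial.C π * P).map res = 0 := by
  rw [Polynomial.map_mul, Polynomial.map_C, res_pi h, Polynomial.C_0, zero_mul]

/-- The reduction of a relation `g(j) x = Σ f_i(j) v_i` in the Gauss ring. -/
theorem gaussRed_relation {n : ℕ} (y : Fin n → LaurentSeries ℤ)
    {x : LaurentSeries E} (hx : x ∈ gaussRing O res)
    (g : Polynomial O) (f : Fin n → Polynomial O)
    (hrel : evE O (jqModC E) g * x =
      ∑ i, evE O (jqModC E) (f i) * coeffMap (Int.castRingHom E) (y i)) :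
    Polynomial.aeval (jqModC κ) (g.map res) * gaussRed O res ⟨x, hx⟩ =
      ∑ i, Polynomial.aeval (jqModC κ) ((f i).map res) * coeffMap (Int.castRingHom κ) (y i) := by
  set J : gaussRing O res := ⟨jqModC E, j_mem_gaussRing O res⟩ with hJ
  have hrelV : evV O res J g * ⟨x, hx⟩ =
      ∑ i, evV O res J (f i) *
        ⟨coeffMap (Int.castRingHom E) (y i), intCast_mem_gaussRing O res (y i)⟩ := by
    apply Subtype.ext
    have h1 : (((∑ i, evV O res J (f i) *
        ⟨coeffMap (Int.castRingHom E) (y i), intCast_mem_gaussRing O res (y i)⟩ :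
          gaussRing O res)) : LaurentSeries E) =
        ∑ i, evE O (jqModC E) (f i) * coeffMap (Int.castRingHom E) (y i) := by
      rw [← Subring.subtype_apply, map_sum]
      refine Finset.sum_congr rfl fun i _ => ?_
      rw [Subring.subtype_apply, Subring.coe_mul, coe_evV]
    rw [h1, Subring.coe_mul, coe_evV]
    exact hrel
  have h2 := congrArg (gaussRed O res) hrelV
  rw [map_mul, map_sum, gaussRed_evV, hJ, gaussRed_j] at h2
  rw [h2]
  refine Finset.sum_congr rfl fun i _ => ?_
  rw [map_mul, gaussRed_evV, gaussRed_j, gaussRed_intCast]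

theorem exists_denominator_aux (h : UnifData O res π) {n : ℕ} (y : Fin n → LaurentSeries ℤ)
    (hli : LinearIndependent (jField κ) (fun i => coeffMap (Int.castRingHom κ) (y i)))
    {x : LaurentSeries E} (hx : x ∈ gaussRing O res) :
    ∀ (m : ℕ) (g : Polynomial O) (f : Fin n → Polynomial O) (k : ℕ) (u : O),
      g.coeff k = π ^ m * u → res u ≠ 0 →
      evE O (jqModC E) g * x =
        ∑ i, evE O (jqModC E) (f i) * coeffMap (Int.castRingHom E) (y i) →
      ∃ (g' : Polynomial O) (f' : Fin n → Polynomial O), g'.map res ≠ 0 ∧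
        evE O (jqModC E) g' * x =
          ∑ i, evE O (jqModC E) (f' i) * coeffMap (Int.castRingHom E) (y i) := by
  intro m
  induction m with
  | zero =>
    intro g f k u hgk hu hrel
    refine ⟨g, f, ?_, hrel⟩
    intro h0
    apply hu
    have := congrArg (fun Q => Q.coeff k) h0
    simpa [hgk] using this
  | succ m ih =>
    intro g f k u hgk hu hrel
    by_cases hg : g.map res = 0
    · obtain ⟨g1, rfl⟩ := exists_eq_C_mul_of_map_eq_zero h hg
      have hred := gaussRed_relation (res := res) y hx _ f hrel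
      rw [hg, map_zero, zero_mul] at hred
      have hf0 := poly_indep hli (fun i => (f i).map res) hred.symm
      have hf1 : ∀ i, ∃ P' : Polynomial O, f i = Polynomial.C π * P' :=
        fun i => exists_eq_C_mul_of_map_eq_zero h (hf0 i)
      choose f1 hf1 using hf1
      have hπ := piL_ne_zero h
      have hrel1 : evE O (jqModC E) g1 * x =
          ∑ i, evE O (jqModC E) (f1 i) * coeffMap (Int.castRingHom E) (y i) := by
        apply mul_left_cancel₀ hπ
        rw [Finset.mul_sum, ← mul_assoc, ← evE_C_pi (O := O) (jqModC E), ← map_mul, hrel]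
        refine Finset.sum_congr rfl fun i _ => ?_
        rw [hf1 i, map_mul, mul_assoc]
      have hgk1 : g1.coeff k = π ^ m * u := by
        rw [Polynomial.coeff_C_mul, pow_succ, mul_comm (π ^ m) π, mul_assoc] at hgk
        exact mul_left_cancel₀ h.ne_zero hgk
      exact ih g1 f1 k u hgk1 hu hrel1
    · exact ⟨g, f, hg, hrel⟩

/-- **Denominator lemma.** Every `x ∈ F_E ∩ V` satisfies a relation `g(j) x = Σ f_i(j) y_i`
with `O`-coefficients and `g ≢ 0 mod π`. -/
theorem exists_denominator (h : UnifData O res π) (hfrac : IsFrac O) {n : ℕ}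
    (y : Fin n → LaurentSeries ℤ)
    (hli : LinearIndependent (jField κ) (fun i => coeffMap (Int.castRingHom κ) (y i)))
    {x : LaurentSeries E}
    (hspan : x ∈ Submodule.span (jField E)
      (Set.range fun i => coeffMap (Int.castRingHom E) (y i)))
    (hx : x ∈ gaussRing O res) :
    ∃ (g : Polynomial O) (f : Fin n → Polynomial O), g.map res ≠ 0 ∧
      evE O (jqModC E) g * x =
        ∑ i, evE O (jqModC E) (f i) * coeffMap (Int.castRingHom E) (y i) := by
  obtain ⟨g, f, hg, hrel⟩ := exists_cleared_of_mem_span hfrac _ hspan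
  obtain ⟨k, hk⟩ : ∃ k, g.coeff k ≠ 0 := by
    by_contra hne
    simp only [not_exists, not_not] at hne
    exact hg (Polynomial.ext fun k => by rw [hne k, Polynomial.coeff_zero])
  obtain ⟨m, u, hu, hres⟩ := h.prim _ hk
  exact exists_denominator_aux h y hli hx m g f k u hu hres hrel

end Denominator

section Reduction

variable {E : Type} [Field E] {O : Subring E} {κ : Type} [Field κ] {res : O →+* κ} {π : O}

theorem coeffMap_intCast_mem_full (k : Type*) [Field k] (N : ℕ) {w : LaurentSeries ℤ}
    (hw : w ∈ Subring.closure (intDivisorExpansions N)) :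
    coeffMap (Int.castRingHom k) w ∈ modularFunctionFieldFullC k N := by
  induction hw using Subring.closure_induction with
  | mem x hx =>
    obtain ⟨d, hd, hdN, rfl⟩ := hx
    rw [← jd_eq_intCast]
    exact jqModCd_mem_full k N hdN
  | zero => rw [map_zero]; exact zero_mem _
  | one => rw [map_one]; exact one_mem _
  | add x y _ _ hx hy => rw [map_add]; exact add_mem hx hy
  | neg x _ hx => rw [map_neg]; exact neg_mem hx
  | mul x y _ _ hx hy => rw [map_mul]; exact mul_mem hx hy

theorem aeval_j_mem_full (k : Type*) [Field k] (N : ℕ) (P : Polynomial k) :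
    Polynomial.aeval (jqModC k) P ∈ modularFunctionFieldFullC k N := by
  have h1 : Polynomial.aeval (jqModC k) P ∈ Algebra.adjoin k {jqModC k} :=
    Polynomial.aeval_mem_adjoin_singleton _ _
  have h2 : Algebra.adjoin k {jqModC k} ≤ (modularFunctionFieldFullC k N).toSubalgebra :=
    Algebra.adjoin_le (Set.singleton_subset_iff.mpr (jqModC_mem_full k N))
  exact h2 h1

theorem aeval_j_ne_zero {k : Type*} [Field k] {P : Polynomial k} (hP : P ≠ 0) :
    Polynomial.aeval (jqModC k) P ≠ 0 :=
  aeval_ne_zero_of_order_ne_zero (S28.H145.jqModC_ne_zero' k)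
    (by rw [S28.H145.order_jqModC]; decide) hP

theorem natCast_ne_zero_of_res (res : O →+* κ) {N : ℕ} (hN : (N : κ) ≠ 0) : (N : E) ≠ 0 := by
  intro h0
  apply hN
  have h1 : (N : O) = 0 := Subtype.ext (by simpa using h0)
  rw [← map_natCast res, h1, map_zero]

/-- **(T2)** The reduction of an element of `F_E ∩ V` lies in `F_κ`. -/
theorem gaussRed_mem_full (A : AnalyticInputs) (h : UnifData O res π) (hfrac : IsFrac O)
    (N : ℕ) [NeZero N] (hN : (N : κ) ≠ 0) {x : LaurentSeries E}
    (hxF : x ∈ modularFunctionFieldFullC E N) (hx : x ∈ gaussRing O res) :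
    gaussRed O res ⟨x, hx⟩ ∈ modularFunctionFieldFullC κ N := by
  obtain ⟨y, hy, hbasis⟩ := exists_uniform_basis A N
  obtain ⟨hspanE, -⟩ := hbasis E (natCast_ne_zero_of_res res hN)
  obtain ⟨-, hliκ⟩ := hbasis κ hN
  obtain ⟨g, f, hg, hrel⟩ := exists_denominator h hfrac y hliκ (hspanE x hxF) hx
  have hred := gaussRed_relation (res := res) y hx g f hrel
  have hg0 := aeval_j_ne_zero hg
  have hx' : gaussRed O res ⟨x, hx⟩ = (Polynomial.aeval (jqModC κ) (g.map res))⁻¹ *
      ∑ i, Polynomial.aeval (jqModC κ) ((f i).map res) * coeffMap (Int.castRingHom κ) (y i) := by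
    rw [← hred, ← mul_assoc, inv_mul_cancel₀ hg0, one_mul]
  rw [hx']
  refine mul_mem (inv_mem (aeval_j_mem_full κ N _)) (sum_mem fun i _ => ?_)
  exact mul_mem (aeval_j_mem_full κ N _) (coeffMap_intCast_mem_full κ N (hy i))

end Reduction

section Integral

variable {E : Type} [Field E] {O : Subring E}

theorem coeffMap_comp_evalAt :
    (coeffMap (Int.castRingHom E)).comp (evalAt (jqModC ℤ)) =
      (evE O (jqModC E)).comp (Polynomial.mapRingHom (Int.castRingHom O)) := by
  apply Polynomial.ringHom_ext
  · intro a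
    simp [evalAt, evE]
  · simp [evalAt, evE, coeffMap_jqModC]

/-- Integer series integral over `ℤ[j]` are integral over `O[j]` in `E((q))`. -/
theorem isIntegralElem_intCast {w : LaurentSeries ℤ}
    (hw : (evalAt (jqModC ℤ)).IsIntegralElem w) :
    (evE O (jqModC E)).IsIntegralElem (coeffMap (Int.castRingHom E) w) := by
  obtain ⟨P, hP, hPw⟩ := hw
  refine ⟨P.map (Polynomial.mapRingHom (Int.castRingHom O)), hP.map _, ?_⟩
  rw [Polynomial.eval₂_map, ← coeffMap_comp_evalAt, ← Polynomial.hom_eval₂, hPw, map_zero]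

theorem isIntegralElem_basis (A : AnalyticInputs) (N : ℕ) [NeZero N] {w : LaurentSeries ℤ}
    (hw : w ∈ Subring.closure (intDivisorExpansions N)) :
    (evE O (jqModC E)).IsIntegralElem (coeffMap (Int.castRingHom E) w) :=
  isIntegralElem_intCast (S28.H508.isIntegralElem_of_mem_closure N
    (S28.H867.coreData_integral N (fun p hp _ _ => A.modPoly p hp)) hw)

end Integral

section Kernel

variable {E : Type} [Field E] {O : Subring E} {κ : Type} [Field κ] {res : O →+* κ} {π : O}

theorem prime_pi (h : UnifData O res π) : Prime π := by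
  rw [← Ideal.span_singleton_prime h.ne_zero]
  have : Ideal.span {π} = RingHom.ker res := by
    ext x
    rw [RingHom.mem_ker, h.ker, Ideal.mem_span_singleton']
    constructor
    · rintro ⟨a, rfl⟩; exact ⟨a, mul_comm _ _⟩
    · rintro ⟨y, rfl⟩; exact ⟨y, mul_comm _ _⟩
  rw [this]
  exact RingHom.ker_isPrime _

theorem not_C_pi_dvd (h : UnifData O res π) {g : Polynomial O} (hg : g.map res ≠ 0) :
    ¬ Polynomial.C π ∣ g := by
  rintro ⟨g', rfl⟩
  exact hg (map_res_C_pi_mul h g')

theorem piL_mem_full (N : ℕ) (π : O) : piL O π ∈ modularFunctionFieldFullC E N := by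
  have : piL O π = algebraMap E (LaurentSeries E) (π : E) := by
    rw [algebraMap_laurentSeries_eq_single]; rfl
  rw [this]
  exact (modularFunctionFieldFullC E N).algebraMap_mem _

theorem evE_mem_full (N : ℕ) {t : LaurentSeries E} (ht : t ∈ modularFunctionFieldFullC E N)
    (P : Polynomial O) : evE O t P ∈ modularFunctionFieldFullC E N := by
  induction P using Polynomial.induction_on' with
  | add p q hp hq => rw [map_add]; exact add_mem hp hq
  | monomial n a =>
    rw [← Polynomial.C_mul_X_pow_eq_monomial, map_mul, map_pow, evE_C]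
    have h1 : (HahnSeries.C (a : E) : LaurentSeries E) = algebraMap E (LaurentSeries E) (a : E) := by
      rw [algebraMap_laurentSeries_eq_single]; rfl
    rw [h1]
    refine mul_mem ((modularFunctionFieldFullC E N).algebraMap_mem _) (pow_mem ?_ n)
    simpa [evE] using ht

/-- Elements of the fraction field which are integral over `O[t]`, `t ∈ V`, lie in `V`. -/
theorem mem_gaussRing_of_isIntegralElem (h : UnifData O res π) {t : LaurentSeries E}
    (ht : t ∈ gaussRing O res) {x : LaurentSeries E} (hxF : x ∈ gaussFrac O)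
    (hx : (evE O t).IsIntegralElem x) : x ∈ gaussRing O res := by
  letI : Algebra (Polynomial O) (LaurentSeries E) := (evE O t).toAlgebra
  exact mem_gaussRing_of_isIntegral' h (A := Polynomial O)
    (fun a => evE_mem_gaussRing ht a) hxF hx

variable [IsDiscreteValuationRing O]

/-- **Abstract kernel step** on the chart `O[t]`. -/
theorem isIntegralElem_of_pi_mul (h : UnifData O res π) {t : LaurentSeries E} (ht0 : t ≠ 0)
    (hto : t.order ≠ 0) {a : LaurentSeries E}
    (h1 : (evE O t).IsIntegralElem (piL O π * a))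
    {s : Polynomial O} (hs : s.map res ≠ 0)
    (h2 : (evE O t).IsIntegralElem (evE O t s * a)) :
    (evE O t).IsIntegralElem a := by
  letI : Algebra (Polynomial O) (LaurentSeries E) := (evE O t).toAlgebra
  haveI : FaithfulSMul (Polynomial O) (LaurentSeries E) :=
    (faithfulSMul_iff_algebraMap_injective _ _).mpr (evE_injective ht0 hto)
  have hp : Prime (Polynomial.C π : Polynomial O) := Polynomial.prime_C_iff.mpr (prime_pi h)
  have h1' : IsIntegral (Polynomial O) ((Polynomial.C π : Polynomial O) • a) := by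
    rw [Algebra.smul_def]
    show (evE O t).IsIntegralElem (evE O t (Polynomial.C π) * a)
    rw [evE_C_pi]
    exact h1
  have h2' : IsIntegral (Polynomial O) (s • a) := by
    rw [Algebra.smul_def]
    exact h2
  exact S28.H865.isIntegral_of_smul_of_smul hp (not_C_pi_dvd h hs) h1' h2'

/-- The denominator property of a chart `O[t]`. -/
def HasDenominators (res : O →+* κ) (N : ℕ) (t : LaurentSeries E) : Prop :=
  ∀ x : LaurentSeries E, x ∈ modularFunctionFieldFullC E N → x ∈ gaussRing O res →
    ∃ s : Polynomial O, s.map res ≠ 0 ∧ (evE O t).IsIntegralElem (evE O t s * x)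

/-- **Kernel theorem** on a chart with denominators. -/
theorem kernel_chart (h : UnifData O res π) (N : ℕ) {t : LaurentSeries E} (ht0 : t ≠ 0)
    (hto : t.order ≠ 0) (hD : HasDenominators res N t)
    {x : LaurentSeries E} (hxF : x ∈ modularFunctionFieldFullC E N)
    (hint : (evE O t).IsIntegralElem x)
    (hx : x ∈ gaussRing O res) (hred : gaussRed O res ⟨x, hx⟩ = 0) :
    ∃ x' : LaurentSeries E, x' ∈ modularFunctionFieldFullC E N ∧
      (evE O t).IsIntegralElem x' ∧ x = piL O π * x' := by
  obtain ⟨yV, hyV⟩ := (gaussRed_eq_zero_iff h ⟨x, hx⟩).mp hred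
  have hyV' : x = piL O π * (yV : LaurentSeries E) := hyV
  have hπ := piL_ne_zero h
  have hyF : (yV : LaurentSeries E) ∈ modularFunctionFieldFullC E N := by
    have : (yV : LaurentSeries E) = (piL O π)⁻¹ * x := by
      rw [hyV', ← mul_assoc, inv_mul_cancel₀ hπ, one_mul]
    rw [this]
    exact mul_mem (inv_mem (piL_mem_full N π)) hxF
  obtain ⟨s, hs, hsint⟩ := hD _ hyF yV.2
  refine ⟨yV, hyF, ?_, hyV'⟩
  exact isIntegralElem_of_pi_mul h ht0 hto (by rw [← hyV']; exact hint) hs hsint

/-- The chart `O[j]` has denominators. -/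
theorem hasDenominators_j (A : AnalyticInputs) (h : UnifData O res π) (hfrac : IsFrac O)
    (N : ℕ) [NeZero N] (hN : (N : κ) ≠ 0) : HasDenominators res N (jqModC E) := by
  intro x hxF hx
  obtain ⟨y, hy, hbasis⟩ := exists_uniform_basis A N
  obtain ⟨hspanE, -⟩ := hbasis E (natCast_ne_zero_of_res res hN)
  obtain ⟨-, hliκ⟩ := hbasis κ hN
  obtain ⟨g, f, hg, hrel⟩ := exists_denominator h hfrac y hliκ (hspanE x hxF) hx
  refine ⟨g, hg, ?_⟩
  rw [hrel]
  letI : Algebra (Polynomial O) (LaurentSeries E) := (evE O (jqModC E)).toAlgebra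
  show IsIntegral (Polynomial O) _
  refine IsIntegral.sum _ fun i _ => ?_
  exact IsIntegral.mul (isIntegral_algebraMap (x := f i)) (isIntegralElem_basis A N (hy i))

/-- **(T4), finite chart.**  `x ∈ F_E` integral over `O[j]` with vanishing reduction is
`π · x'` with `x' ∈ F_E` integral over `O[j]`. -/
theorem kernel_fin (A : AnalyticInputs) (h : UnifData O res π) (hfrac : IsFrac O)
    (N : ℕ) [NeZero N] (hN : (N : κ) ≠ 0)
    {x : LaurentSeries E} (hxF : x ∈ modularFunctionFieldFullC E N)
    (hint : (evE O (jqModC E)).IsIntegralElem x)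
    (hx : x ∈ gaussRing O res) (hred : gaussRed O res ⟨x, hx⟩ = 0) :
    ∃ x' : LaurentSeries E, x' ∈ modularFunctionFieldFullC E N ∧
      (evE O (jqModC E)).IsIntegralElem x' ∧ x = piL O π * x' :=
  kernel_chart h N (S28.H145.jqModC_ne_zero' E) (by rw [S28.H145.order_jqModC]; decide)
    (hasDenominators_j A h hfrac N hN) hxF hint hx hred

end Kernel

section Infinity

variable {E : Type} [Field E] {O : Subring E} {κ : Type} [Field κ] {res : O →+* κ} {π : O}

theorem evE_X (t : LaurentSeries E) : evE O t Polynomial.X = t := by simp [evE]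

/-- `(reflect m P)(t⁻¹) = P(t) · t⁻ᵐ` for `deg P ≤ m`. -/
theorem evE_reflect {t : LaurentSeries E} (ht0 : t ≠ 0) (m : ℕ) (P : Polynomial O)
    (hP : P.natDegree ≤ m) : evE O t⁻¹ (P.reflect m) = evE O t P * t⁻¹ ^ m := by
  letI : Invertible t := invertibleOfNonzero ht0
  have h := Polynomial.eval₂_reflect_mul_pow
    ((HahnSeries.C : E →+* LaurentSeries E).comp O.subtype) t m P hP
  rw [invOf_eq_inv] at h
  show Polynomial.eval₂ _ t⁻¹ (P.reflect m) = Polynomial.eval₂ _ t P * _
  rw [← h, mul_assoc, ← mul_pow, mul_inv_cancel₀ ht0, one_pow, mul_one]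

/-- **Pole clearing**: if `w` is integral over `O[t]`, then `t⁻ⁿ w` is integral over `O[t⁻¹]`
for some `n`. -/
theorem exists_pow_mul_isIntegralElem {t : LaurentSeries E} (ht0 : t ≠ 0) {w : LaurentSeries E}
    (hw : (evE O t).IsIntegralElem w) :
    ∃ n : ℕ, (evE O t⁻¹).IsIntegralElem (t⁻¹ ^ n * w) := by
  classical
  obtain ⟨p, hmonic, hroot⟩ := hw
  set M : ℕ := ∑ i ∈ Finset.range (p.natDegree + 1), (p.coeff i).natDegree with hM
  have hnM : ∀ i ≤ p.natDegree, (p.coeff i).natDegree ≤ M := fun i hi =>
    Finset.single_le_sum (f := fun i => (p.coeff i).natDegree) (fun _ _ => Nat.zero_le _)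
      (Finset.mem_range.mpr (Nat.lt_succ_of_le hi))
  set q : Polynomial (LaurentSeries E) := (p.map (evE O t)).scaleRoots (t⁻¹ ^ M) with hq
  have hqmonic : q.Monic := (Polynomial.monic_scaleRoots_iff _).mpr (hmonic.map _)
  have hqroot : q.eval (t⁻¹ ^ M * w) = 0 := by
    rw [hq, Polynomial.scaleRoots_eval_mul, Polynomial.eval_map, hroot, mul_zero]
  have hqcoeff : ∀ i, q.coeff i ∈ (evE O t⁻¹).rangeS := by
    intro i
    rw [hq, Polynomial.coeff_scaleRoots, Polynomial.coeff_map, hmonic.natDegree_map]
    by_cases hi : i < p.natDegree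
    · have hle : (p.coeff i).natDegree ≤ M * (p.natDegree - i) := by
        calc (p.coeff i).natDegree ≤ M := hnM i hi.le
          _ = M * 1 := (mul_one M).symm
          _ ≤ M * (p.natDegree - i) :=
            Nat.mul_le_mul_left M (Nat.one_le_iff_ne_zero.mpr (by omega))
      refine ⟨(p.coeff i).reflect (M * (p.natDegree - i)), ?_⟩
      rw [evE_reflect ht0 _ _ hle, ← pow_mul]
    · rcases (not_lt.mp hi).lt_or_eq with hlt | heq
      · rw [Polynomial.coeff_eq_zero_of_natDegree_lt hlt, map_zero, zero_mul]
        exact zero_mem _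
      · rw [← heq, hmonic.coeff_natDegree, map_one, one_mul, Nat.sub_self, pow_zero]
        exact one_mem _
  have hlifts : q ∈ Polynomial.lifts (evE O t⁻¹) :=
    (Polynomial.lifts_iff_coeff_lifts q).mpr fun i => hqcoeff i
  obtain ⟨q', hq'q, -, hq'monic⟩ := Polynomial.lifts_and_natDegree_eq_and_monic hlifts hqmonic
  refine ⟨M, q', hq'monic, ?_⟩
  rw [Polynomial.eval₂_eq_eval_map, hq'q, hqroot]

/-- Denominators pass from the chart `O[t]` to the chart `O[t⁻¹]`. -/
theorem HasDenominators.inv {N : ℕ} {t : LaurentSeries E} (ht0 : t ≠ 0)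
    (hD : HasDenominators res N t) : HasDenominators res N t⁻¹ := by
  intro x hxF hx
  obtain ⟨s, hs, hint⟩ := hD x hxF hx
  obtain ⟨n, hn⟩ := exists_pow_mul_isIntegralElem ht0 hint
  refine ⟨Polynomial.X ^ s.natDegree * (Polynomial.X ^ n * s.reflect s.natDegree), ?_, ?_⟩
  · rw [Polynomial.map_mul, Polynomial.map_mul, Polynomial.map_pow, Polynomial.map_pow,
      Polynomial.map_X, ← Polynomial.reflect_map]
    exact mul_ne_zero (pow_ne_zero _ Polynomial.X_ne_zero)
      (mul_ne_zero (pow_ne_zero _ Polynomial.X_ne_zero)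
        (Polynomial.reflect_eq_zero_iff.not.mpr hs))
  · have hre : evE O t⁻¹ (Polynomial.X ^ s.natDegree * (Polynomial.X ^ n * s.reflect s.natDegree)) * x
        = evE O t⁻¹ (Polynomial.X ^ s.natDegree * Polynomial.X ^ s.natDegree) *
          (t⁻¹ ^ n * (evE O t s * x)) := by
      rw [map_mul, map_mul, map_mul, map_pow, map_pow, evE_X, evE_reflect ht0 _ _ le_rfl]
      ring
    rw [hre]
    exact RingHom.IsIntegralElem.mul _ ((evE O t⁻¹).isIntegralElem_map) hn

end Infinity

section KernelInf

variable {E : Type} [Field E] {O : Subring E} [IsDiscreteValuationRing O]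
  {κ : Type} [Field κ] {res : O →+* κ} {π : O}

theorem j_inv_mem_gaussRing : (jqModC E)⁻¹ ∈ gaussRing O res := by
  have h := inv_mem_gaussRing_of_gaussRed_ne_zero
    (⟨jqModC E, j_mem_gaussRing O res⟩ : gaussRing O res)
    (by rw [gaussRed_j]; exact S28.H145.jqModC_ne_zero' κ)
  exact h

/-- **(T4), chart at infinity.** -/
theorem kernel_inf (A : AnalyticInputs) (h : UnifData O res π) (hfrac : IsFrac O)
    (N : ℕ) [NeZero N] (hN : (N : κ) ≠ 0)
    {x : LaurentSeries E} (hxF : x ∈ modularFunctionFieldFullC E N)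
    (hint : (evE O (jqModC E)⁻¹).IsIntegralElem x)
    (hx : x ∈ gaussRing O res) (hred : gaussRed O res ⟨x, hx⟩ = 0) :
    ∃ x' : LaurentSeries E, x' ∈ modularFunctionFieldFullC E N ∧
      (evE O (jqModC E)⁻¹).IsIntegralElem x' ∧ x = piL O π * x' :=
  kernel_chart h N (inv_ne_zero (S28.H145.jqModC_ne_zero' E))
    (S28.H806.jqModC_inv_order_ne_zero E)
    ((hasDenominators_j A h hfrac N hN).inv (S28.H145.jqModC_ne_zero' E)) hxF hint hx hred

end KernelInf

end Fermat.Agent.S18.H208

end
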